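import Mathlib
import Fermat.Agent.LT.A2.H753.RegSpec

/-!
# Row LT, tower A2, leaf A2.03.1.3.3 `H753.LatticeC` (Gaussian lattice sums) -- helper131, OFF-MAIN

Spec: `Fermat/Agent/LT/A2/H753/RegSpec.lean` (helper753@d32e3cf62, sha256 1258ecf1be299f69) and its
closure (byte-identical copies).  Nothing is assumed, no placeholder proof.

Proof.
1. `exists_common_denominator_h131`: a compact set `Q` of finite adeles has a common denominator
   `0 ≠ d ∈ 𝓞 K` (the sets `{a : d a integral}` are open, `RestrictedProduct.isOpen_forall_mem`,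
   they cover `𝔸_f` by `exists_denominator_h131` and `U_d ∪ U_d' ⊆ U_{d d'}`).  Applied to the
   two projections of `B - finPt C`: if `finPt (x + ξ) ∈ B`, `x ∈ C`, then `d ξ ∈ 𝓞 K²`
   (`exists_integer_h131`).
2. `archSq_add_ge_h131`: `archSq (x + y) ≥ archSq y / 2 - archSq x`; `archSq` is continuous, hence
   bounded on `C`; `archSq (ratV ξ) = ∑_w w(ξ₁)² + w(ξ₂)²`.
3. `summable_gauss_int_h131`: `∑_{η ∈ 𝓞 K} exp (-c ∑_w w(η)²) < ∞` (`exp (-c t²) ≤ C t^{-2n}`,
   `ZLattice.summable_norm_rpow` for the integer lattice of the mixed space,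
   `‖mixedEmbedding η‖² ≤ ∑_w w(η)²`).
4. `b ξ = exp (δ M) b₁(ξ₁) b₁(ξ₂)`, `b₁` = the extension by zero of
   `η ↦ exp (-c ∑_w w(η)²)` along `η ↦ η / d`, `c = δ / (2 D²)`, `D = 1 + ∑_w w(d)`.
-/

set_option autoImplicit false

open IsDedekindDomain NumberField
open scoped Topology

noncomputable section

namespace Fermat.Agent.LT.A2.H131

open Fermat.Agent.LT.H556 Fermat.Agent.LT.A2 Fermat.Agent.LT.A2.H753

variable {K : Type} [Field K] [NumberField K]

/-- Every element of `ℤᵐ⁰` is below some `exp M`, `M : ℕ`. -/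
theorem exists_le_exp_nat_h131 (a : WithZero (Multiplicative ℤ)) :
    ∃ M : ℕ, a ≤ WithZero.exp (M : ℤ) := by
  by_cases ha : a = 0
  · exact ⟨0, by rw [ha]; exact zero_le⟩
  · obtain ⟨k, rfl⟩ : ∃ k : ℤ, a = WithZero.exp k := ⟨WithZero.log a, (WithZero.exp_log ha).symm⟩
    refine ⟨k.toNat, ?_⟩
    rw [WithZero.exp_le_exp]
    omega

/-- The valuation of `K_v` on the image of `K`. -/
theorem valued_coe_h131 (v : HeightOneSpectrum (𝓞 K)) (k : K) :
    Valued.v (algebraMap K (v.adicCompletion K) k) = v.valuation K k :=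
  v.valuedAdicCompletion_eq_valuation' k

/-- The integral finite adeles form an open set. -/
theorem isOpen_integralAdeles_h131 :
    IsOpen {a : FiniteAdeleRing (𝓞 K) K | ∀ v, Valued.v (a v) ≤ 1} := by
  have h := RestrictedProduct.isOpen_forall_mem
    (R := fun v : HeightOneSpectrum (𝓞 K) => v.adicCompletion K)
    (A := fun v : HeightOneSpectrum (𝓞 K) => (v.adicCompletionIntegers K : Set (v.adicCompletion K)))
    (fun v => Valued.isOpen_valuationSubring _)
  exact h

/-- Every finite adele has a nonzero integral denominator. -/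
theorem exists_denominator_h131 (a : FiniteAdeleRing (𝓞 K) K) :
    ∃ d : 𝓞 K, d ≠ 0 ∧ ∀ v : HeightOneSpectrum (𝓞 K),
      Valued.v (algebraMap K (v.adicCompletion K) (algebraMap (𝓞 K) K d) * a v) ≤ 1 := by
  classical
  have hfin : {v : HeightOneSpectrum (𝓞 K) | ¬ Valued.v (a v) ≤ 1}.Finite := a.2
  choose n hn using fun v : HeightOneSpectrum (𝓞 K) => exists_le_exp_nat_h131 (Valued.v (a v))
  set I : Ideal (𝓞 K) := ∏ v ∈ hfin.toFinset, v.asIdeal ^ n v with hI
  have hI0 : I ≠ ⊥ := by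
    rw [hI, ← Ideal.zero_eq_bot, Finset.prod_ne_zero_iff]
    intro v _
    exact pow_ne_zero _ v.ne_bot
  obtain ⟨d, hdI, hd0⟩ := Submodule.exists_mem_ne_zero_of_ne_bot hI0
  refine ⟨d, hd0, fun v => ?_⟩
  have hd1 : Valued.v (algebraMap K (v.adicCompletion K) (algebraMap (𝓞 K) K d)) ≤ 1 := by
    rw [valued_coe_h131, HeightOneSpectrum.valuation_of_algebraMap]
    exact v.intValuation_le_one d
  rw [map_mul]
  by_cases hv : Valued.v (a v) ≤ 1
  · exact mul_le_one' hd1 hv
  · have hvS : v ∈ hfin.toFinset := by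
      rw [Set.Finite.mem_toFinset]
      exact hv
    have hle : I ≤ v.asIdeal ^ n v :=
      Ideal.le_of_dvd (Finset.dvd_prod_of_mem (fun v => v.asIdeal ^ n v) hvS)
    have hdv : v.intValuation d ≤ WithZero.exp (-(n v : ℤ)) :=
      (v.intValuation_le_pow_iff_mem d (n v)).2 (hle hdI)
    rw [valued_coe_h131, HeightOneSpectrum.valuation_of_algebraMap]
    calc v.intValuation d * Valued.v (a v)
        ≤ WithZero.exp (-(n v : ℤ)) * WithZero.exp (n v : ℤ) := mul_le_mul' hdv (hn v)
      _ = 1 := by rw [← WithZero.exp_add]; simp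

/-- A compact set of finite adeles has a common nonzero integral denominator. -/
theorem exists_common_denominator_h131 (Q : Set (FiniteAdeleRing (𝓞 K) K)) (hQ : IsCompact Q) :
    ∃ d : 𝓞 K, d ≠ 0 ∧ ∀ a ∈ Q, ∀ v : HeightOneSpectrum (𝓞 K),
      Valued.v (algebraMap K (v.adicCompletion K) (algebraMap (𝓞 K) K d) * a v) ≤ 1 := by
  classical
  set U : {d : 𝓞 K // d ≠ 0} → Set (FiniteAdeleRing (𝓞 K) K) := fun d =>
    {a | ∀ v : HeightOneSpectrum (𝓞 K),
      Valued.v (algebraMap K (v.adicCompletion K) (algebraMap (𝓞 K) K d.1) * a v) ≤ 1} with hU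
  have hUopen : ∀ d, IsOpen (U d) := by
    intro d
    have hc : Continuous fun a : FiniteAdeleRing (𝓞 K) K =>
        algebraMap K (FiniteAdeleRing (𝓞 K) K) (algebraMap (𝓞 K) K d.1) * a :=
      continuous_const.mul continuous_id
    exact isOpen_integralAdeles_h131.preimage hc
  have hcover : Q ⊆ ⋃ d, U d := by
    intro a _
    obtain ⟨d, hd0, hd⟩ := exists_denominator_h131 a
    exact Set.mem_iUnion.2 ⟨⟨d, hd0⟩, hd⟩
  obtain ⟨t, ht⟩ := hQ.elim_finite_subcover U hUopen hcover
  refine ⟨∏ i ∈ t, i.1, Finset.prod_ne_zero_iff.2 fun i _ => i.2, fun a ha v => ?_⟩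
  obtain ⟨i, hi⟩ := Set.mem_iUnion.1 (ht ha)
  obtain ⟨hit, hai⟩ := Set.mem_iUnion.1 hi
  have hsplit : ∏ j ∈ t, j.1 = (∏ j ∈ t.erase i, j.1) * i.1 :=
    (Finset.prod_erase_mul t (fun j => j.1) hit).symm
  have e1 : algebraMap K (v.adicCompletion K)
      (algebraMap (𝓞 K) K ((∏ j ∈ t.erase i, j.1) * i.1)) * a v
      = algebraMap K (v.adicCompletion K) (algebraMap (𝓞 K) K (∏ j ∈ t.erase i, j.1))
        * (algebraMap K (v.adicCompletion K) (algebraMap (𝓞 K) K i.1) * a v) := by
    rw [map_mul, map_mul, mul_assoc]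
  rw [hsplit, e1, map_mul]
  refine mul_le_one' ?_ (hai v)
  rw [valued_coe_h131, HeightOneSpectrum.valuation_of_algebraMap]
  exact v.intValuation_le_one _

/-- An element of `K` which is integral at every finite place is an integer. -/
theorem exists_integer_h131 (x : K)
    (hx : ∀ v : HeightOneSpectrum (𝓞 K), Valued.v (algebraMap K (v.adicCompletion K) x) ≤ 1) :
    ∃ η : 𝓞 K, algebraMap (𝓞 K) K η = x := by
  have := HeightOneSpectrum.mem_integers_of_valuation_le_one (R := 𝓞 K) K x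
    (fun v => by rw [← valued_coe_h131]; exact hx v)
  exact this

/-! ## The infinite places -/

theorem norm_infComp_h131 (w : InfinitePlace K) (ξ : K) :
    ‖(algebraMap K (A0.Adl K) ξ).1 w‖ = w ξ := by
  have h := InfinitePlace.Completion.norm_coe w ((WithAbs.equiv w.1).symm ξ)
  simpa using h

/-- The sum of the squares of the absolute values of `x ∈ K` at the infinite places. -/
def sqS_h131 (x : K) : ℝ := ∑ w : InfinitePlace K, (w x) ^ 2

theorem sqS_nonneg_h131 (x : K) : 0 ≤ sqS_h131 x :=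
  Finset.sum_nonneg fun _ _ => sq_nonneg _

theorem archSq_ratV_h131 (ξ : K × K) : archSq (ratV ξ) = sqS_h131 ξ.1 + sqS_h131 ξ.2 := by
  unfold archSq ratV sqS_h131
  rw [Finset.sum_add_distrib]
  simp only [norm_infComp_h131]

theorem archSq_add_ge_h131 (x y : A0.Adl K × A0.Adl K) :
    archSq y / 2 - archSq x ≤ archSq (x + y) := by
  unfold archSq
  rw [Finset.sum_div, ← Finset.sum_sub_distrib]
  refine Finset.sum_le_sum fun w _ => ?_
  have key : ∀ a b : w.Completion, ‖b‖ ^ 2 / 2 - ‖a‖ ^ 2 ≤ ‖a + b‖ ^ 2 := by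
    intro a b
    have h1 : ‖b‖ ≤ ‖a + b‖ + ‖a‖ := by
      have : b = (a + b) - a := by abel
      calc ‖b‖ = ‖(a + b) - a‖ := by rw [← this]
        _ ≤ ‖a + b‖ + ‖a‖ := norm_sub_le _ _
    have h2 := norm_nonneg b
    have h3 := norm_nonneg (a + b)
    have h4 := norm_nonneg a
    nlinarith [sq_nonneg (‖a + b‖ - ‖a‖)]
  have e1 : (x + y).1.1 w = x.1.1 w + y.1.1 w := rfl
  have e2 : (x + y).2.1 w = x.2.1 w + y.2.1 w := rfl
  rw [e1, e2]
  have k1 := key (x.1.1 w) (y.1.1 w)
  have k2 := key (x.2.1 w) (y.2.1 w)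
  linarith

theorem continuous_archSq_h131 : Continuous (archSq (K := K)) := by
  unfold archSq
  refine continuous_finsetSum _ fun w _ => ?_
  fun_prop

theorem exists_archSq_le_h131 (C : Set (A0.Adl K × A0.Adl K)) (hC : IsCompact C) :
    ∃ M : ℝ, 0 ≤ M ∧ ∀ x ∈ C, archSq x ≤ M := by
  obtain ⟨M, hM⟩ := hC.exists_bound_of_continuousOn (continuous_archSq_h131 (K := K)).continuousOn
  refine ⟨max M 0, le_max_right _ _, fun x hx => ?_⟩
  exact ((le_abs_self _).trans (hM x hx)).trans (le_max_left _ _)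

/-! ## Gaussian sums over the integers -/

open scoped Classical in
theorem norm_sq_mixedEmbedding_le_h131 (x : K) :
    ‖mixedEmbedding K x‖ ^ 2 ≤ sqS_h131 x := by
  rw [mixedEmbedding.norm_eq_sup'_normAtPlace]
  obtain ⟨w, -, hw⟩ := Finset.exists_mem_eq_sup' (Finset.univ_nonempty (α := InfinitePlace K))
    (fun w => mixedEmbedding.normAtPlace w (mixedEmbedding K x))
  rw [hw, mixedEmbedding.normAtPlace_apply]
  unfold sqS_h131
  exact Finset.single_le_sum (f := fun w : InfinitePlace K => (w x) ^ 2)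
    (fun _ _ => sq_nonneg _) (Finset.mem_univ w)

/-- Gaussian decay beats every power. -/
theorem exp_neg_le_h131 (c : ℝ) (hc : 0 < c) (n : ℕ) (t : ℝ) (ht : 0 < t) :
    Real.exp (-c * t ^ 2) ≤ (n.factorial / c ^ n) * (t ^ (2 * n))⁻¹ := by
  have hx : 0 ≤ c * t ^ 2 := by positivity
  have h1 := Real.pow_div_factorial_le_exp (c * t ^ 2) hx n
  have h2 : 0 < (c * t ^ 2) ^ n := by positivity
  have hfact : (0 : ℝ) < n.factorial := by exact_mod_cast n.factorial_pos
  rw [show -c * t ^ 2 = -(c * t ^ 2) by ring, Real.exp_neg]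
  have h3 : (Real.exp (c * t ^ 2))⁻¹ ≤ ((c * t ^ 2) ^ n / n.factorial)⁻¹ :=
    inv_anti₀ (by positivity) h1
  refine h3.trans (le_of_eq ?_)
  rw [mul_pow, ← pow_mul]
  field_simp

open scoped Classical in
/-- Gaussian sums over the integer lattice of the mixed space converge. -/
theorem summable_gauss_lattice_h131 (c : ℝ) (hc : 0 < c) :
    Summable fun z : mixedEmbedding.integerLattice K => Real.exp (-c * ‖(z : mixedEmbedding.mixedSpace K)‖ ^ 2) := by
  set n : ℕ := Module.finrank ℤ (mixedEmbedding.integerLattice K) + 1 with hn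
  have hr : (-(2 * n : ℕ) : ℝ) < -(Module.finrank ℤ (mixedEmbedding.integerLattice K) : ℝ) := by
    rw [neg_lt_neg_iff]
    have : Module.finrank ℤ (mixedEmbedding.integerLattice K) < 2 * n := by omega
    exact_mod_cast this
  have hsum := ZLattice.summable_norm_rpow (mixedEmbedding.integerLattice K) _ hr
  have hsum0 : Summable fun z : mixedEmbedding.integerLattice K =>
      if z = 0 then (1 : ℝ) else 0 :=
    (hasSum_ite_eq (0 : mixedEmbedding.integerLattice K) (1 : ℝ)).summable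
  refine Summable.of_nonneg_of_le (fun z => (Real.exp_pos _).le) (fun z => ?_)
    ((hsum.mul_left (n.factorial / c ^ n)).add hsum0)
  by_cases hz : z = 0
  · subst hz
    simp only [ZeroMemClass.coe_zero, norm_zero, if_true]
    have h0 : (0 : ℝ) ≤ (n.factorial / c ^ n) * (0 : ℝ) ^ (-((2 * n : ℕ) : ℝ)) := by positivity
    simp only [ne_eq, OfNat.ofNat_ne_zero, not_false_eq_true, zero_pow, mul_zero, Real.exp_zero]
    linarith
  · have hpos : 0 < ‖z‖ := norm_pos_iff.2 hz
    have hpos' : 0 < ‖(z : mixedEmbedding.mixedSpace K)‖ := hpos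
    rw [if_neg hz, add_zero]
    have := exp_neg_le_h131 c hc n ‖(z : mixedEmbedding.mixedSpace K)‖ hpos'
    refine this.trans (le_of_eq ?_)
    congr 1
    rw [Real.rpow_neg hpos.le, Real.rpow_natCast]
    rfl

open scoped Classical in
/-- Gaussian sums over the integers of `K` converge. -/
theorem summable_gauss_int_h131 (c : ℝ) (hc : 0 < c) :
    Summable fun η : 𝓞 K => Real.exp (-c * sqS_h131 (algebraMap (𝓞 K) K η)) := by
  set j : 𝓞 K → mixedEmbedding.integerLattice K := fun η =>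
    ⟨mixedEmbedding K (algebraMap (𝓞 K) K η), ⟨η, rfl⟩⟩ with hj
  have hjinj : Function.Injective j := by
    intro η η' h
    have h1 : mixedEmbedding K (algebraMap (𝓞 K) K η) = mixedEmbedding K (algebraMap (𝓞 K) K η') :=
      congrArg Subtype.val h
    exact RingOfIntegers.coe_injective (mixedEmbedding_injective K h1)
  have hs := (summable_gauss_lattice_h131 (K := K) c hc).comp_injective hjinj
  refine Summable.of_nonneg_of_le (fun η => (Real.exp_pos _).le) (fun η => ?_) hs
  simp only [Function.comp_apply, hj]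
  apply Real.exp_le_exp.2
  have := norm_sq_mixedEmbedding_le_h131 (algebraMap (𝓞 K) K η)
  nlinarith

/-- The absolute values at the infinite places of `d` are bounded by `D = 1 + ∑_w w(d)`. -/
theorem sqS_mul_le_h131 (d x : K) :
    sqS_h131 (d * x) ≤ (1 + ∑ w : InfinitePlace K, w d) ^ 2 * sqS_h131 x := by
  unfold sqS_h131
  rw [Finset.mul_sum]
  refine Finset.sum_le_sum fun w _ => ?_
  have h1 : w d ≤ 1 + ∑ w : InfinitePlace K, w d := by
    have := Finset.single_le_sum (f := fun w : InfinitePlace K => w d)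
      (fun w _ => apply_nonneg w d) (Finset.mem_univ w)
    linarith
  have h2 : 0 ≤ w d := apply_nonneg w d
  have h3 : 0 ≤ w x := apply_nonneg w x
  rw [map_mul, mul_pow]
  have : (w d) ^ 2 ≤ (1 + ∑ w : InfinitePlace K, w d) ^ 2 := by nlinarith
  exact mul_le_mul_of_nonneg_right this (sq_nonneg _)

/-- **A2.03.1.3.3 LATTICE** (`H753.LatticeC`). -/
theorem latticeC_h131 : LatticeC := by
  intro K _ _ B C δ hB hC hδ
  classical
  -- the compact set containing the finite parts of the rational points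
  have hcf : Continuous fun x : A0.Adl K × A0.Adl K => finPt x := by
    unfold finPt
    fun_prop
  set B' : Set (FiniteAdeleRing (𝓞 K) K × FiniteAdeleRing (𝓞 K) K) :=
    (fun p : (FiniteAdeleRing (𝓞 K) K × FiniteAdeleRing (𝓞 K) K) × (A0.Adl K × A0.Adl K) =>
      p.1 - finPt p.2) '' (B ×ˢ C) with hB'
  have hB'c : IsCompact B' :=
    (hB.prod hC).image (continuous_fst.sub (hcf.comp continuous_snd))
  set Q : Set (FiniteAdeleRing (𝓞 K) K) := Prod.fst '' B' ∪ Prod.snd '' B' with hQ
  have hQc : IsCompact Q := (hB'c.image continuous_fst).union (hB'c.image continuous_snd)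
  obtain ⟨d, hd0, hd⟩ := exists_common_denominator_h131 Q hQc
  obtain ⟨M, hM0, hM⟩ := exists_archSq_le_h131 C hC
  have hdK : algebraMap (𝓞 K) K d ≠ 0 := by
    rw [Ne, map_eq_zero_iff _ (IsFractionRing.injective (𝓞 K) K)]
    exact hd0
  set D : ℝ := 1 + ∑ w : InfinitePlace K, w (algebraMap (𝓞 K) K d) with hD
  have hDpos : 0 < D := by
    have : 0 ≤ ∑ w : InfinitePlace K, w (algebraMap (𝓞 K) K d) :=
      Finset.sum_nonneg fun w _ => apply_nonneg w _
    linarith
  set c : ℝ := δ / (2 * D ^ 2) with hc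
  have hcpos : 0 < c := by positivity
  set β : 𝓞 K → ℝ := fun η => Real.exp (-c * sqS_h131 (algebraMap (𝓞 K) K η)) with hβ
  have hβs : Summable β := summable_gauss_int_h131 c hcpos
  set i : 𝓞 K → K := fun η => algebraMap (𝓞 K) K η / algebraMap (𝓞 K) K d with hi
  have hiinj : Function.Injective i := by
    intro η η' h
    simp only [hi] at h
    have := (div_left_inj' hdK).1 h
    exact RingOfIntegers.coe_injective this
  set b₁ : K → ℝ := Function.extend i β 0 with hb₁
  have hb₁s : Summable b₁ := (summable_extend_zero hiinj).2 hβs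
  have hb₁0 : ∀ ξ, 0 ≤ b₁ ξ := by
    intro ξ
    by_cases h : ∃ η, i η = ξ
    · obtain ⟨η, rfl⟩ := h
      rw [hb₁, hiinj.extend_apply]
      exact (Real.exp_pos _).le
    · rw [hb₁, Function.extend_apply' _ _ _ h]
      exact le_rfl
  refine ⟨fun ξ => Real.exp (δ * M) * (b₁ ξ.1 * b₁ ξ.2),
    (hb₁s.mul_of_nonneg hb₁s hb₁0 hb₁0).mul_left _,
    fun ξ => mul_nonneg (Real.exp_pos _).le (mul_nonneg (hb₁0 _) (hb₁0 _)), ?_⟩
  intro ξ x hx hxB
  -- the finite part of `ξ` lies in `B'`
  have hfin : finPt (ratV ξ) ∈ B' := by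
    refine ⟨(finPt (x + ratV ξ), x), ⟨hxB, hx⟩, ?_⟩
    have e : finPt (x + ratV ξ) = finPt x + finPt (ratV ξ) := rfl
    simp only
    rw [e, add_sub_cancel_left]
  have hξ1 : (algebraMap K (A0.Adl K) ξ.1).2 ∈ Q := Or.inl ⟨_, hfin, rfl⟩
  have hξ2 : (algebraMap K (A0.Adl K) ξ.2).2 ∈ Q := Or.inr ⟨_, hfin, rfl⟩
  -- integrality
  have hint : ∀ y : K, (algebraMap K (A0.Adl K) y).2 ∈ Q →
      Real.exp (-(δ / 2) * sqS_h131 y) ≤ b₁ y := by
    intro y hy
    obtain ⟨η, hη⟩ := exists_integer_h131 (algebraMap (𝓞 K) K d * y) (fun v => by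
      rw [map_mul]
      exact hd _ hy v)
    have hyi : y = i η := by
      simp only [hi]
      rw [hη, mul_div_cancel_left₀ _ hdK]
    rw [hyi, hb₁, hiinj.extend_apply, ← hyi]
    simp only [hβ]
    apply Real.exp_le_exp.2
    have h1 : sqS_h131 (algebraMap (𝓞 K) K η) ≤ D ^ 2 * sqS_h131 y := by
      rw [hη]
      exact sqS_mul_le_h131 _ _
    have h2 : c * sqS_h131 (algebraMap (𝓞 K) K η) ≤ δ / 2 * sqS_h131 y := by
      calc c * sqS_h131 (algebraMap (𝓞 K) K η) ≤ c * (D ^ 2 * sqS_h131 y) :=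
            mul_le_mul_of_nonneg_left h1 hcpos.le
        _ = δ / 2 * sqS_h131 y := by
            rw [hc]
            field_simp
    linarith
  have h1 := hint ξ.1 hξ1
  have h2 := hint ξ.2 hξ2
  have h3 : archSq (ratV ξ) / 2 - archSq x ≤ archSq (x + ratV ξ) := archSq_add_ge_h131 x (ratV ξ)
  have h4 : archSq x ≤ M := hM x hx
  have h5 : Real.exp (-δ * archSq (x + ratV ξ))
      ≤ Real.exp (δ * M) * (Real.exp (-(δ / 2) * sqS_h131 ξ.1)
        * Real.exp (-(δ / 2) * sqS_h131 ξ.2)) := by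
    rw [← Real.exp_add, ← Real.exp_add]
    apply Real.exp_le_exp.2
    rw [archSq_ratV_h131] at h3
    nlinarith
  refine h5.trans ?_
  refine mul_le_mul_of_nonneg_left ?_ (Real.exp_pos _).le
  exact mul_le_mul h1 h2 (Real.exp_pos _).le (hb₁0 _)

end Fermat.Agent.LT.A2.H131
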