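import Mathlib
import Fermat.Agent.LT.A2.H38.MatchSpec

/-!
# Row LT, tower A2, branch GALSEED — leaf A2.01.12 `LevelPrimesC` (helper131)

OFF-MAIN.  Only finitely many prime numbers lie under a prime dividing `𝔫 ≠ 0`:
`S` = the prime factors of `Ideal.absNorm 𝔫`.
-/

set_option autoImplicit false

open IsDedekindDomain NumberField

namespace Fermat.Agent.LT.A2.H131

/-- A prime number `p` not dividing `m ≠ 0` and a proper ideal containing `m` and `p`: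
impossible (Bézout in `ℤ`). -/
theorem not_mem_of_coprime_h131 {R : Type*} [CommRing R] (I : Ideal R) (hI : I ≠ ⊤)
    (m p : ℕ) (hcop : Nat.Coprime m p) (hm : (m : R) ∈ I) : (p : R) ∉ I := by
  intro hp
  apply hI
  rw [Ideal.eq_top_iff_one]
  have h1 : ((m : ℤ) * Nat.gcdA m p + (p : ℤ) * Nat.gcdB m p : ℤ) = 1 := by
    have := Nat.gcd_eq_gcd_ab m p
    rw [hcop.gcd_eq_one] at this
    simpa using this.symm
  have h2 : ((((m : ℤ) * Nat.gcdA m p + (p : ℤ) * Nat.gcdB m p : ℤ)) : R) = 1 := by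
    rw [h1]; simp
  rw [← h2]
  push_cast
  exact I.add_mem (I.mul_mem_right _ hm) (I.mul_mem_right _ hp)

/-- **Leaf A2.01.12.** -/
theorem levelPrimesC_h131 : Fermat.Agent.LT.A2.H38.LevelPrimesC := by
  intro K _ _ 𝔫 h𝔫
  refine ⟨(Ideal.absNorm 𝔫).primeFactors, ?_⟩
  intro p hp hpS w hpw hdvd
  have hm0 : Ideal.absNorm 𝔫 ≠ 0 := by
    rw [Ne, Ideal.absNorm_eq_zero_iff]
    exact h𝔫
  have hnot : ¬ p ∣ Ideal.absNorm 𝔫 := by
    intro hdiv
    exact hpS (Nat.mem_primeFactors.2 ⟨hp, hdiv, hm0⟩)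
  have hcop : Nat.Coprime (Ideal.absNorm 𝔫) p :=
    (Nat.Coprime.symm ((Nat.Prime.coprime_iff_not_dvd hp).2 hnot))
  have hle : 𝔫 ≤ w.asIdeal := Ideal.le_of_dvd hdvd
  have hmem : ((Ideal.absNorm 𝔫 : ℕ) : 𝓞 K) ∈ w.asIdeal := hle (Ideal.absNorm_mem 𝔫)
  exact not_mem_of_coprime_h131 w.asIdeal w.isPrime.ne_top _ p hcop hmem hpw

end Fermat.Agent.LT.A2.H131
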